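import Fermat.Statements.S02

set_option autoImplicit false
open FreyPackage

namespace Fermat.Agent.S02

theorem aux_even (a b c : ℤ) (ha : a ≠ 0) (hb : b ≠ 0) (hc : c ≠ 0) (p : ℕ) (pp : p.Prime)
    (hp5 : 5 ≤ p) (H : a ^ p + b ^ p = c ^ p) (hg : gcd a b = 1) (hb2 : (2:ℤ) ∣ b) :
    Nonempty FreyPackage := by
  have podd : Odd p := pp.odd_of_ne_two (by omega)
  have hb2' : (b : ZMod 2) = 0 := (ZMod.intCast_zmod_eq_zero_iff_dvd b 2).2 hb2
  have ha_odd : ¬ (2:ℤ) ∣ a := by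
    intro h
    have h2 : (2:ℤ) ∣ gcd a b := dvd_gcd h hb2
    rw [hg] at h2
    norm_num at h2
  have h4 : a % 4 = 1 ∨ a % 4 = 3 := by omega
  rcases h4 with h4 | h4
  · refine ⟨⟨-a, -b, -c, neg_ne_zero.2 ha, neg_ne_zero.2 hb, neg_ne_zero.2 hc, p, pp, hp5,
      ?_, ?_, ?_, ?_⟩⟩
    · rw [podd.neg_pow, podd.neg_pow, podd.neg_pow, ← H]; ring
    · rw [gcd_neg, neg_gcd]; exact hg
    · have h5 : ((-a : ℤ) : ZMod 4) = ((3 : ℤ) : ZMod 4) := by
        rw [ZMod.intCast_eq_intCast_iff_dvd_sub]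
        push_cast
        omega
      rw [h5]; rfl
    · push_cast; rw [hb2']; simp
  · refine ⟨⟨a, b, c, ha, hb, hc, p, pp, hp5, H, hg, ?_, hb2'⟩⟩
    have h5 : ((a : ℤ) : ZMod 4) = ((3 : ℤ) : ZMod 4) := by
      rw [ZMod.intCast_eq_intCast_iff_dvd_sub]
      push_cast
      omega
    rw [h5]; rfl

theorem aux_coprime (a b c : ℤ) (ha : a ≠ 0) (hb : b ≠ 0) (hc : c ≠ 0) (p : ℕ) (pp : p.Prime)
    (hp5 : 5 ≤ p) (H : a ^ p + b ^ p = c ^ p) (hg : gcd a b = 1) :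
    Nonempty FreyPackage := by
  have podd : Odd p := pp.odd_of_ne_two (by omega)
  by_cases hb2 : (2:ℤ) ∣ b
  · exact aux_even a b c ha hb hc p pp hp5 H hg hb2
  by_cases ha2 : (2:ℤ) ∣ a
  · exact aux_even b a c hb ha hc p pp hp5 (by rw [add_comm]; exact H)
      (by rw [gcd_comm]; exact hg) ha2
  have hc2 : (2:ℤ) ∣ c := by
    have ha' : Odd a := by rw [← Int.not_even_iff_odd, even_iff_two_dvd]; exact ha2
    have hb' : Odd b := by rw [← Int.not_even_iff_odd, even_iff_two_dvd]; exact hb2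
    have h1 : Even (c ^ p) := by rw [← H]; exact (ha'.pow).add_odd (hb'.pow)
    have h2 := (Int.even_pow.1 h1).1
    exact even_iff_two_dvd.1 h2
  refine aux_even a (-c) (-b) ha (neg_ne_zero.2 hc) (neg_ne_zero.2 hb) p pp hp5 ?_ ?_
    (by simpa using hc2)
  · rw [podd.neg_pow, podd.neg_pow, ← H]; ring
  · rw [gcd_neg, ← gcdab_eq_gcdac (by omega) H]; exact hg

theorem result (a b c : ℤ) (ha : a ≠ 0) (hb : b ≠ 0) (hc : c ≠ 0) (p : ℕ) (pp : p.Prime) (hp5 : 5 ≤ p) (H : a ^ p + b ^ p = c ^ p) : Nonempty FreyPackage := by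
  obtain ⟨a', b', ha', hb', hu⟩ := extract_gcd a b
  have hg : gcd a' b' = 1 := (normalize_gcd a' b').symm.trans (normalize_eq_one.2 hu)
  generalize gcd a b = d at ha' hb'
  have hd0 : d ≠ 0 := by
    intro h
    rw [h, zero_mul] at ha'
    exact ha ha'
  have hp0 : p ≠ 0 := by omega
  have hdc : d ∣ c := by
    rw [← Int.pow_dvd_pow_iff hp0, ← H]
    exact dvd_add (pow_dvd_pow_of_dvd ⟨a', ha'⟩ p) (pow_dvd_pow_of_dvd ⟨b', hb'⟩ p)
  obtain ⟨c', hc'⟩ := hdc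
  subst ha' hb' hc'
  have ha0 : a' ≠ 0 := right_ne_zero_of_mul ha
  have hb0 : b' ≠ 0 := right_ne_zero_of_mul hb
  have hc0 : c' ≠ 0 := right_ne_zero_of_mul hc
  refine aux_coprime a' b' c' ha0 hb0 hc0 p pp hp5 ?_ hg
  have hdp : d ^ p ≠ 0 := pow_ne_zero p hd0
  apply mul_left_cancel₀ hdp
  rw [mul_add, ← mul_pow, ← mul_pow, ← mul_pow]
  exact H

end Fermat.Agent.S02
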