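import Fermat.Statements.S07
import Fermat.Prelude.Thm_ModularForm_sturm_bound_Gamma0
import Fermat.Prelude.Thm_CongruenceSubgroup_one_mem_strictPeriods_Gamma0

set_option autoImplicit false
open WeierstrassCurve WeierstrassCurve.Affine WeierstrassCurve.Affine.Point
open CuspForm ModularFormClass UpperHalfPlane
open ModularForm

namespace Fermat.Agent.S07

open scoped MatrixGroups

theorem index_Gamma0_two_le : (CongruenceSubgroup.Gamma0 2).index ≤ 4 := by
  classical
  let φ : SL(2, ℤ) ⧸ (CongruenceSubgroup.Gamma0 2) → ZMod 2 × ZMod 2 :=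
    fun q => (((q.out 0 0 : ℤ) : ZMod 2), ((q.out 1 0 : ℤ) : ZMod 2))
  have hφ : Function.Injective φ := by
    intro q q' h
    have h1 : ((q.out 0 0 : ℤ) : ZMod 2) = ((q'.out 0 0 : ℤ) : ZMod 2) := congrArg Prod.fst h
    have h2 : ((q.out 1 0 : ℤ) : ZMod 2) = ((q'.out 1 0 : ℤ) : ZMod 2) := congrArg Prod.snd h
    rw [← QuotientGroup.out_eq' q, ← QuotientGroup.out_eq' q', QuotientGroup.eq,
      CongruenceSubgroup.Gamma0_mem]
    have : ((q.out)⁻¹ * q'.out) 1 0 = - (q.out 1 0) * (q'.out 0 0) + (q.out 0 0) * (q'.out 1 0) := by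
      rw [Matrix.SpecialLinearGroup.coe_mul, Matrix.SpecialLinearGroup.coe_inv,
        Matrix.adjugate_fin_two, Matrix.mul_apply, Fin.sum_univ_two]
      simp
    rw [this]
    push_cast
    rw [h1, h2]
    ring
  calc (CongruenceSubgroup.Gamma0 2).index
      = Nat.card (SL(2, ℤ) ⧸ (CongruenceSubgroup.Gamma0 2)) := rfl
    _ ≤ Nat.card (ZMod 2 × ZMod 2) := Nat.card_le_card_of_injective φ hφ
    _ = 4 := by simp

theorem result (f : CuspForm (CongruenceSubgroup.Gamma0 2) 2) : f = 0 := by
  let F : ModularForm (CongruenceSubgroup.Gamma0 2) 2 :=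
    { toSlashInvariantForm := f.toSlashInvariantForm
      holo' := f.holo'
      bdd_at_cusps' := fun hc g hg => (f.zero_at_cusps' hc g hg).boundedAtFilter }
  have hF : F = 0 := by
    apply ModularForm.sturm_bound_Gamma0 2 F
    intro n hn
    have hidx := index_Gamma0_two_le
    have h0 : ((2 : ℤ) * ((CongruenceSubgroup.Gamma0 2).index : ℤ)).toNat / 12 = 0 := by
      apply Nat.div_eq_of_lt
      omega
    rw [h0] at hn
    obtain rfl : n = 0 := by omega
    exact CuspFormClass.qExpansion_coeff_zero f one_pos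
      (CongruenceSubgroup.one_mem_strictPeriods_Gamma0 2)
  ext z
  have h1 : F z = (0 : ModularForm (CongruenceSubgroup.Gamma0 2) 2) z := by rw [hF]
  have h2 : F z = f z := rfl
  rw [← h2, h1]
  rfl

end Fermat.Agent.S07
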