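import Fermat.Statements.S08
import Fermat.Prelude.Thm_ModularForm_sturm_bound_Gamma0
import Fermat.Prelude.Thm_CongruenceSubgroup_one_mem_strictPeriods_Gamma0

set_option autoImplicit false
open WeierstrassCurve WeierstrassCurve.Affine WeierstrassCurve.Affine.Point
open CuspForm ModularFormClass UpperHalfPlane
open ModularForm

namespace Fermat.Agent.S08

open scoped MatrixGroups

theorem index_Gamma0_one_eq : (CongruenceSubgroup.Gamma0 1).index = 1 := by
  have htop : CongruenceSubgroup.Gamma0 1 = ⊤ := by
    ext A
    simp only [CongruenceSubgroup.Gamma0_mem, Subgroup.mem_top, iff_true]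
    exact Subsingleton.elim _ _
  rw [htop, Subgroup.index_top]

theorem result (f : CuspForm (CongruenceSubgroup.Gamma0 1) 2) : f = 0 := by
  let F : ModularForm (CongruenceSubgroup.Gamma0 1) 2 :=
    { toSlashInvariantForm := f.toSlashInvariantForm
      holo' := f.holo'
      bdd_at_cusps' := fun hc g hg => (f.zero_at_cusps' hc g hg).boundedAtFilter }
  have hF : F = 0 := by
    apply ModularForm.sturm_bound_Gamma0 1 F
    intro n hn
    have hidx := index_Gamma0_one_eq
    have h0 : ((2 : ℤ) * ((CongruenceSubgroup.Gamma0 1).index : ℤ)).toNat / 12 = 0 := by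
      apply Nat.div_eq_of_lt
      omega
    rw [h0] at hn
    obtain rfl : n = 0 := by omega
    exact CuspFormClass.qExpansion_coeff_zero f one_pos
      (CongruenceSubgroup.one_mem_strictPeriods_Gamma0 1)
  ext z
  have h1 : F z = (0 : ModularForm (CongruenceSubgroup.Gamma0 1) 2) z := by rw [hF]
  have h2 : F z = f z := rfl
  rw [← h2, h1]
  rfl

end Fermat.Agent.S08
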