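import Mathlib

set_option autoImplicit false

namespace Fermat.Agent.S49Arith

variable {b c e : ℕ → ℂ}

theorem eq_zero_of_one
    (h : ∀ p : ℕ, p.Prime → ∀ n, b (n * p) + (if p ∣ n then e p * b (n / p) else 0) = c p * b n)
    (h1 : b 1 = 0) : ∀ n, 0 < n → b n = 0 := by
  intro n
  induction n using Nat.strong_induction_on with
  | _ n ih =>
    intro hn
    by_cases hn1 : n = 1
    · rw [hn1, h1]
    · have hp := Nat.minFac_prime hn1
      obtain ⟨m, hm⟩ := Nat.minFac_dvd n
      generalize n.minFac = p at hp hm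
      have hmpos : 0 < m := by
        rcases Nat.eq_zero_or_pos m with h0 | h0
        · rw [h0, mul_zero] at hm; omega
        · exact h0
      have hmlt : m < n := by
        rw [hm]; nlinarith [hp.two_le]
      have hrel := h p hp m
      rw [mul_comm m p, ← hm, ih m hmlt hmpos, mul_zero] at hrel
      split_ifs at hrel with hd
      · have : b (m / p) = 0 := ih _ (lt_of_le_of_lt (Nat.div_le_self _ _) hmlt)
          (Nat.div_pos (Nat.le_of_dvd hmpos hd) hp.pos)
        rw [this, mul_zero, add_zero] at hrel
        exact hrel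
      · rwa [add_zero] at hrel

theorem mul_of_coprime
    (h : ∀ p : ℕ, p.Prime → ∀ n, b (n * p) + (if p ∣ n then e p * b (n / p) else 0) = c p * b n)
    (h1 : b 1 = 1) : ∀ m n : ℕ, m.Coprime n → b (m * n) = b m * b n := by
  intro m
  induction m using Nat.strong_induction_on with
  | _ m ih =>
    intro n hmn
    by_cases hm1 : m = 1
    · subst hm1; simp [h1]
    by_cases hm0 : m = 0
    · subst hm0
      have : n = 1 := by simpa using hmn
      subst this; simp [h1]
    · have hp := Nat.minFac_prime hm1
      have hpm := Nat.minFac_dvd m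
      obtain ⟨m', hm'⟩ := Nat.minFac_dvd m
      generalize m.minFac = p at hp hm' hpm
      have hm'pos : 0 < m' := by
        rcases Nat.eq_zero_or_pos m' with h0 | h0
        · rw [h0, mul_zero] at hm'; omega
        · exact h0
      have hm'lt : m' < m := by
        rw [hm']; nlinarith [hp.two_le]
      have hcop' : m'.Coprime n := Nat.Coprime.coprime_dvd_left ⟨p, by rw [hm', mul_comm]⟩ hmn
      have hpn : ¬ p ∣ n := fun hd => by
        have h2 : p ∣ Nat.gcd m n := Nat.dvd_gcd hpm hd
        rw [hmn] at h2
        exact hp.one_lt.ne' (Nat.dvd_one.mp h2)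
      have r1 := h p hp (m' * n)
      have r2 := h p hp m'
      have e1 : m' * n * p = m * n := by rw [hm']; ring
      have e2 : m' * p = m := by rw [hm']; ring
      rw [e1, ih m' hm'lt n hcop'] at r1
      rw [e2] at r2
      by_cases hd : p ∣ m'
      · have hd' : p ∣ m' * n := Dvd.dvd.mul_right hd n
        rw [if_pos hd'] at r1
        rw [if_pos hd] at r2
        have e3 : m' * n / p = (m' / p) * n := by
          obtain ⟨k, rfl⟩ := hd
          rw [mul_assoc, Nat.mul_div_cancel_left _ hp.pos, Nat.mul_div_cancel_left _ hp.pos]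
        have hcop'' : (m' / p).Coprime n :=
          Nat.Coprime.coprime_dvd_left (Nat.div_dvd_of_dvd hd) hcop'
        rw [e3, ih (m' / p) (lt_of_le_of_lt (Nat.div_le_self _ _) hm'lt) n hcop''] at r1
        linear_combination r1 - b n * r2
      · have hd' : ¬ p ∣ m' * n := fun hh => (hp.dvd_mul.mp hh).elim hd hpn
        rw [if_neg hd', add_zero] at r1
        rw [if_neg hd, add_zero] at r2
        linear_combination r1 - b n * r2

theorem c_eq
    (h : ∀ p : ℕ, p.Prime → ∀ n, b (n * p) + (if p ∣ n then e p * b (n / p) else 0) = c p * b n)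
    (h1 : b 1 = 1) (p : ℕ) (hp : p.Prime) : c p = b p := by
  have h2 := h p hp 1
  rw [one_mul, if_neg hp.not_dvd_one, add_zero, h1, mul_one] at h2
  exact h2.symm

theorem pow_rec
    (h : ∀ p : ℕ, p.Prime → ∀ n, b (n * p) + (if p ∣ n then e p * b (n / p) else 0) = c p * b n)
    (h1 : b 1 = 1) (p r : ℕ) (hp : p.Prime) :
    b (p ^ (r + 2)) = b p * b (p ^ (r + 1)) - e p * b (p ^ r) := by
  have hc := c_eq h h1 p hp
  have r1 := h p hp (p ^ (r + 1))
  have hd : p ∣ p ^ (r + 1) := dvd_pow_self p (Nat.succ_ne_zero r)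
  have e1 : p ^ (r + 1) * p = p ^ (r + 2) := by ring
  have e2 : p ^ (r + 1) / p = p ^ r := by rw [pow_succ]; exact Nat.mul_div_cancel _ hp.pos
  rw [if_pos hd, e1, e2, hc] at r1
  linear_combination r1

end Fermat.Agent.S49Arith
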