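import Fermat.Statements.S49
import Fermat.Prelude.Def_CuspForm_HeckeAlgebra
import Fermat.Prelude.Thm_CuspForm_intLattice_fg
import Fermat.Prelude.Thm_CuspForm_mem_intLattice_of_mem_heckeAlgebra
import Fermat.Prelude.Thm_CuspForm_mem_intLattice_of_coe_eq_heckeT
import Fermat.Prelude.Thm_ModularFormClass_qCoeff_heckeT
import Fermat.Prelude.Thm_ModularFormClass_qCoeff_heckeU
import Fermat.Prelude.Thm_CongruenceSubgroup_one_mem_strictPeriods_Gamma0
import Fermat.Agent.S49_Eig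
import Fermat.Agent.S49_Arith

set_option autoImplicit false
open CuspForm EisensteinWeightOne CongruenceSubgroup ModularFormClass
open FLT FLT.AbstractIntegralStructure

namespace Fermat.Agent.S49

variable {N : ℕ}

theorem qc_add (f g : CuspForm (Gamma0 N) 2) (n : ℕ) :
    qCoeff ⇑(f + g) n = qCoeff ⇑f n + qCoeff ⇑g n :=
  P2MW.S_CuspForm_mem_intLattice_of_coe_eq_heckeT.W3WsD.qCoeff_add f g n

theorem qc_zsmul (c : ℤ) (f : CuspForm (Gamma0 N) 2) (n : ℕ) :
    qCoeff ⇑(c • f) n = c * qCoeff ⇑f n :=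
  P2MW.S_CuspForm_mem_intLattice_of_coe_eq_heckeT.W3WsD.qCoeff_zsmul c f n

theorem qc_smul (c : ℂ) (f : CuspForm (Gamma0 N) 2) (n : ℕ) :
    qCoeff ⇑(c • f) n = c * qCoeff ⇑f n := by
  have h1 : ⇑(c • f) = c • ⇑f := by
    ext z
    simp
  simp only [qCoeff, h1]
  rw [ModularForm.qExpansion_smul one_pos (one_mem_strictPeriods_Gamma0 N) c f]
  simp

theorem qc_T {p : ℕ} (hp : p.Prime) (hpN : ¬ p ∣ N) (f : CuspForm (Gamma0 N) 2) (n : ℕ) :
    qCoeff ⇑(heckeTLin 2 hp hpN f) n =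
      qCoeff f (n * p) + if p ∣ n then (p : ℂ) * qCoeff f (n / p) else 0 := by
  rw [CuspForm.coe_heckeTLin_apply,
    ModularFormClass.qCoeff_heckeT f (one_mem_strictPeriods_Gamma0 N) hp.ne_zero n,
    ModularForm.coeffHeckeT_apply]
  norm_num

theorem qc_U [NeZero N] {p : ℕ} (hp : p.Prime) (hpN : p ∣ N) (f : CuspForm (Gamma0 N) 2) (n : ℕ) :
    qCoeff ⇑(heckeULin 2 hpN f) n = qCoeff f (n * p) := by
  rw [CuspForm.coe_heckeULin_apply,
    ModularFormClass.qCoeff_heckeU f (one_mem_strictPeriods_Gamma0 N) hp.ne_zero n,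
    ModularForm.coeffHeckeU_apply]

theorem qc_zero_coeff (f : CuspForm (Gamma0 N) 2) : qCoeff f 0 = 0 :=
  CuspFormClass.qExpansion_coeff_zero f one_pos (one_mem_strictPeriods_Gamma0 N)

theorem eq_zero_of_qc (f : CuspForm (Gamma0 N) 2) (h : ∀ n, qCoeff f n = 0) : f = 0 := by
  have hΓ := one_mem_strictPeriods_Gamma0 N
  have : Fact (IsCusp OnePoint.infty
      (Subgroup.map (Matrix.SpecialLinearGroup.mapGL ℝ) (Gamma0 N))) :=
    ⟨Subgroup.isCusp_of_mem_strictPeriods one_pos hΓ⟩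
  have h0 : UpperHalfPlane.qExpansion 1 f = 0 := by
    ext n
    simpa [qCoeff] using h n
  have h2 := (UpperHalfPlane.qExpansion_eq_zero_iff one_pos
    (SlashInvariantFormClass.periodic_comp_ofComplex f hΓ) (ModularFormClass.holo f)
    (ModularFormClass.bdd_at_infty f)).mp h0
  exact DFunLike.coe_injective h2

theorem memL (g : CuspForm (Gamma0 N) 2) :
    g ∈ CuspForm.intLattice N 2 ↔ ∀ n : ℕ, ∃ m : ℤ, qCoeff g n = (m : ℂ) :=
  P2MW.S_CuspForm_mem_intLattice_of_coe_eq_heckeT.W3WsD.mem_intLattice_iff g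

theorem qint_sub {g : CuspForm (Gamma0 N) 2} (hg : g ∈ qIntegralSet N) :
    g ∈ CuspForm.intLattice N 2 := by
  rw [memL]
  intro n
  obtain ⟨m, hm⟩ := Subring.mem_bot.mp (hg n)
  exact ⟨m, hm.symm⟩

theorem findim [NeZero N] (h : CuspForm.HasIntegralBasis N) :
    FiniteDimensional ℂ (CuspForm (Gamma0 N) 2) := by
  obtain ⟨s, hs⟩ := CuspForm.intLattice_fg N 2
  refine ⟨⟨s, ?_⟩⟩
  rw [eq_top_iff, ← h]
  apply Submodule.span_le.mpr
  intro g hg
  apply Submodule.span_subset_span ℤ ℂ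
  rw [hs]
  exact qint_sub hg

theorem bridge_cong (a : ℕ → ℤ) (n : ℕ) : (3 : ℤ) ∣ (bridgeProduct a).coeff n - a n := by
  have hE : e1Chi3In ℤ = 1 + PowerSeries.C (3 : ℤ) *
      PowerSeries.mk (fun n => if n = 0 then 0 else 2 * sigmaChi n) := by
    ext k
    simp only [e1Chi3In, e1Chi3, PowerSeries.coeff_map, PowerSeries.coeff_mk, map_add,
      PowerSeries.coeff_one, PowerSeries.coeff_C_mul]
    split_ifs <;> simp <;> ring
  unfold bridgeProduct
  rw [hE, mul_add, mul_one, map_add, PowerSeries.coeff_mk, mul_left_comm, PowerSeries.coeff_C_mul]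
  simp

theorem chi_cong (l : ℕ) : (3 : ℤ) ∣ (l : ℤ) - chiNegThree l := by
  unfold chiNegThree
  split_ifs <;> omega

theorem result
    {N : ℕ} [NeZero N] (h : CuspForm.HasIntegralBasis N) {a : ℕ → ℤ}
    (heig : FormalHecke.IsEigensystem
      (fun ℓ => if ℓ ∣ N then 0 else ((chiNegThree ℓ : ℤ) : ℤ)) a)
    (hreal : CuspForm.IsLatticeRealized N a) :
    ∃ (f : CuspForm (Gamma0 N) 2) (_ : f.IsNormalizedEigenform)
      (𝔪' : Ideal (integralClosure ℤ ℂ)), 𝔪'.IsMaximal ∧
      ((3 : ℕ) : integralClosure ℤ ℂ) ∈ 𝔪' ∧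
      ∀ (ℓ : ℕ) (_ : ℓ.Prime) (_ : ¬ ℓ ∣ N),
        ∃ c : integralClosure ℤ ℂ, (c : ℂ) = ModularFormClass.qCoeff f ℓ ∧
          c - (a ℓ : integralClosure ℤ ℂ) ∈ 𝔪' := by
  classical
  obtain ⟨f, hfint, af, haf, hcong⟩ := hreal
  obtain ⟨ha1, hrel⟩ := heig
  have hafa : ∀ n, (3 : ℤ) ∣ af n - a n := fun n => by
    have := dvd_add (hcong n) (bridge_cong a n)
    simpa using this
  let TT := CuspForm.heckeAlgebra N 2 (∅ : Set ℕ)
  let L := CuspForm.intLattice N 2
  let I : Ideal TT :=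
    { carrier := {t | ((1 / 3 : ℂ)) • (t.1 f) ∈ L}
      add_mem' := fun {s t} hs ht => by
        show (1 / 3 : ℂ) • ((s + t).1 f) ∈ L
        have : (1 / 3 : ℂ) • ((s + t).1 f) = (1 / 3 : ℂ) • (s.1 f) + (1 / 3 : ℂ) • (t.1 f) := by
          rw [← smul_add]; rfl
        rw [this]; exact L.add_mem hs ht
      zero_mem' := by
        show (1 / 3 : ℂ) • ((0 : TT).1 f) ∈ L
        have : (1 / 3 : ℂ) • ((0 : TT).1 f) = 0 := by
          have : (0 : TT).1 f = 0 := rfl
          rw [this, smul_zero]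
        rw [this]; exact L.zero_mem
      smul_mem' := fun s t ht => by
        show (1 / 3 : ℂ) • ((s * t).1 f) ∈ L
        have : (1 / 3 : ℂ) • ((s * t).1 f) = s.1 ((1 / 3 : ℂ) • (t.1 f)) := by
          rw [map_smul]; rfl
        rw [this]; exact CuspForm.mem_intLattice_of_mem_heckeAlgebra (by norm_num) s.2 ht }
  have hI : I ≠ ⊤ := by
    intro htop
    have h1 : (1 : TT) ∈ I := by rw [htop]; trivial
    have h1' : (1 / 3 : ℂ) • f ∈ L := h1
    obtain ⟨m, hm⟩ := (memL _).mp h1' 1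
    rw [qc_smul, ← haf 1] at hm
    have h2 : af 1 = 3 * m := by
      have : (af 1 : ℂ) = 3 * m := by linear_combination 3 * hm
      exact_mod_cast this
    have h3 := hafa 1
    rw [ha1, h2] at h3
    omega
  have hTI : ∀ (l : ℕ) (hl : l.Prime) (hlN : ¬ l ∣ N),
      (heckeAlgebra.T hl hlN (Set.notMem_empty l) : TT) + (-a l) • (1 : TT) ∈ I := by
    intro l hl hlN
    show (1 / 3 : ℂ) • (((heckeAlgebra.T hl hlN (Set.notMem_empty l) : TT)
      + (-a l) • (1 : TT)).1 f) ∈ L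
    have e1 : (((heckeAlgebra.T hl hlN (Set.notMem_empty l) : TT) + (-a l) • (1 : TT)).1 f)
        = heckeTLin 2 hl hlN f + (-a l) • f := rfl
    rw [e1]
    apply (memL _).mpr
    intro n
    rw [qc_smul, qc_add, qc_zsmul, qc_T, ← haf, ← haf, ← haf]
    have key : (3 : ℤ) ∣ af (n * l) + (if l ∣ n then (l : ℤ) * af (n / l) else 0)
        + (-a l) * af n := by
      obtain ⟨x1, hx1⟩ := hafa (n * l)
      obtain ⟨x2, hx2⟩ := hafa (n / l)
      obtain ⟨x3, hx3⟩ := hafa n
      obtain ⟨x4, hx4⟩ := chi_cong l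
      have hr := hrel l hl n
      simp only [if_neg hlN] at hr
      rw [mul_comm l n] at hr
      by_cases hd : l ∣ n
      · rw [if_pos hd] at hr ⊢
        refine ⟨x1 + x4 * af (n / l) + chiNegThree l * x2 - a l * x3, ?_⟩
        linear_combination hx1 + af (n / l) * hx4 + chiNegThree l * hx2 - a l * hx3 + hr
      · rw [if_neg hd] at hr ⊢
        refine ⟨x1 - a l * x3, ?_⟩
        linear_combination hx1 - a l * hx3 + hr
    obtain ⟨m, hm⟩ := key
    refine ⟨m, ?_⟩
    have h2 : ((af (n * l) + (if l ∣ n then (l : ℤ) * af (n / l) else 0)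
        + (-a l) * af n : ℤ) : ℂ) = ((3 * m : ℤ) : ℂ) := by rw [hm]
    split_ifs at h2 ⊢ <;> push_cast at h2 ⊢ <;> linear_combination (1 / 3) * h2
  have h3I : (3 : ℤ) • (1 : TT) ∈ I := by
    show (1 / 3 : ℂ) • (((3 : ℤ) • (1 : TT)).1 f) ∈ L
    have e1 : (((3 : ℤ) • (1 : TT)).1 f) = (3 : ℤ) • f := rfl
    rw [e1]
    apply (memL _).mpr
    intro n
    exact ⟨af n, by rw [qc_smul, qc_zsmul, ← haf n]; push_cast; ring⟩
  obtain ⟨M, hMmax, hIM⟩ := Ideal.exists_le_maximal I hI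
  haveI := hMmax.isPrime
  haveI : FiniteDimensional ℂ (CuspForm (Gamma0 N) 2) := findim h
  let ρ : TT →+* Module.End ℂ (CuspForm (Gamma0 N) 2) :=
    { toFun := fun t => t.1
      map_one' := rfl
      map_mul' := fun _ _ => rfl
      map_zero' := rfl
      map_add' := fun _ _ => rfl }
  obtain ⟨g, χ, hg0, hgχ, hχM⟩ := S49Eig.exists_eigvec ρ M (fun t ht => by
    have : t = 0 := Subtype.ext ht
    rw [this]; exact M.zero_mem)
  -- integrality
  have hTint : ∀ t : TT, IsIntegral ℤ t := by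
    haveI : Module.Finite ℤ L := Module.Finite.iff_fg.mpr (CuspForm.intLattice_fg N 2)
    let φ : TT →+* Module.End ℤ L :=
      { toFun := fun t => (t.1.restrictScalars ℤ).restrict
          (fun x hx => CuspForm.mem_intLattice_of_mem_heckeAlgebra (by norm_num) t.2 hx)
        map_one' := by ext; rfl
        map_mul' := fun _ _ => by ext; rfl
        map_zero' := by ext; rfl
        map_add' := fun _ _ => by ext; rfl }
    have hφ : Function.Injective φ.toIntAlgHom := by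
      intro s t hst
      apply Subtype.ext
      apply LinearMap.ext_on h
      intro x hx
      have hxL : x ∈ L := qint_sub hx
      have := congrArg (fun e : Module.End ℤ L => (e ⟨x, hxL⟩ : L).1) hst
      exact this
    intro t
    exact (isIntegral_algHom_iff φ.toIntAlgHom hφ).mp (Algebra.IsIntegral.isIntegral _)
  have hχint : ∀ t : TT, IsIntegral ℤ (χ t) := fun t => (hTint t).map χ.toIntAlgHom
  let lam : TT →+* integralClosure ℤ ℂ := χ.codRestrict (integralClosure ℤ ℂ) (fun t => hχint t)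
  letI : Algebra TT (integralClosure ℤ ℂ) := lam.toAlgebra
  haveI : Algebra.IsIntegral TT (integralClosure ℤ ℂ) :=
    ⟨fun z => (Algebra.IsIntegral.isIntegral (R := ℤ) z).tower_top⟩
  obtain ⟨Q, -, hQp, hQ⟩ := Ideal.exists_ideal_over_prime_of_isIntegral M
    (⊥ : Ideal (integralClosure ℤ ℂ)) (by
      intro t ht
      have h0 : lam t = 0 := ht
      apply hχM
      exact congrArg Subtype.val h0)
  have hQmax : Q.IsMaximal := Ideal.isMaximal_of_isIntegral_of_isMaximal_comap Q (hQ ▸ hMmax)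
  have hmemQ : ∀ t ∈ I, lam t ∈ Q := fun t ht => by
    have : t ∈ Q.comap (algebraMap TT (integralClosure ℤ ℂ)) := hQ ▸ hIM ht
    exact this
  -- eigenform relations
  let cc : ℕ → ℂ := fun p => if hp : p.Prime then
    (if hpN : p ∣ N then χ (heckeAlgebra.U hp hpN (Set.notMem_empty p))
      else χ (heckeAlgebra.T hp hpN (Set.notMem_empty p))) else 0
  let ee : ℕ → ℂ := fun p => if p ∣ N then 0 else p
  have hrelg : ∀ (g' : CuspForm (Gamma0 N) 2), (∀ t, ρ t g' = χ t • g') →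
      ∀ p : ℕ, p.Prime → ∀ n, qCoeff g' (n * p) + (if p ∣ n then ee p * qCoeff g' (n / p) else 0)
        = cc p * qCoeff g' n := by
    intro g' hg' p hp n
    by_cases hpN : p ∣ N
    · have h1 := hg' (heckeAlgebra.U hp hpN (Set.notMem_empty p))
      have h2 : qCoeff ⇑(heckeULin 2 hpN g') n
          = qCoeff ⇑(χ (heckeAlgebra.U hp hpN (Set.notMem_empty p)) • g') n :=
        congrArg (fun x : CuspForm (Gamma0 N) 2 => qCoeff x n) h1
      rw [qc_U hp, qc_smul] at h2
      simp only [cc, ee, dif_pos hp, dif_pos hpN, if_pos hpN, zero_mul, ite_self, add_zero]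
      exact h2
    · have h1 := hg' (heckeAlgebra.T hp hpN (Set.notMem_empty p))
      have h2 : qCoeff ⇑(heckeTLin 2 hp hpN g') n
          = qCoeff ⇑(χ (heckeAlgebra.T hp hpN (Set.notMem_empty p)) • g') n :=
        congrArg (fun x : CuspForm (Gamma0 N) 2 => qCoeff x n) h1
      rw [qc_T, qc_smul] at h2
      simp only [cc, ee, dif_pos hp, dif_neg hpN, if_neg hpN]
      exact h2
  have hb1 : qCoeff g 1 ≠ 0 := by
    intro h0
    apply hg0
    apply eq_zero_of_qc
    intro n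
    rcases Nat.eq_zero_or_pos n with rfl | hn
    · exact qc_zero_coeff g
    · exact S49Arith.eq_zero_of_one (hrelg g hgχ) h0 n hn
  let g' : CuspForm (Gamma0 N) 2 := (qCoeff g 1)⁻¹ • g
  have hg' : ∀ t, ρ t g' = χ t • g' := fun t => by
    show ρ t ((qCoeff g 1)⁻¹ • g) = χ t • ((qCoeff g 1)⁻¹ • g)
    rw [map_smul, hgχ, smul_comm]
  have hg1 : qCoeff g' 1 = 1 := by
    show qCoeff ⇑((qCoeff g 1)⁻¹ • g) 1 = 1
    rw [qc_smul, inv_mul_cancel₀ hb1]
  have R := hrelg g' hg'
  refine ⟨g', ⟨hg1, S49Arith.mul_of_coprime R hg1, fun p r hp hpN => ?_, fun p r hp hpN => ?_⟩,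
    Q, hQmax, ?_, ?_⟩
  · have := S49Arith.pow_rec R hg1 p r hp
    simpa only [ee, if_neg hpN] using this
  · have := S49Arith.pow_rec R hg1 p r hp
    simpa only [ee, if_pos hpN, zero_mul, sub_zero] using this
  · have h3 := hmemQ _ h3I
    have e3 : lam ((3 : ℤ) • (1 : TT)) = ((3 : ℕ) : integralClosure ℤ ℂ) := by
      rw [map_zsmul, map_one]
      simp
    rw [e3] at h3
    exact h3
  · intro l hl hlN
    refine ⟨lam (heckeAlgebra.T hl hlN (Set.notMem_empty l)), ?_, ?_⟩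
    · have := S49Arith.c_eq R hg1 l hl
      simp only [cc, dif_pos hl, dif_neg hlN] at this
      exact this
    · have := hmemQ _ (hTI l hl hlN)
      simpa [map_add, map_zsmul, sub_eq_add_neg] using this

end Fermat.Agent.S49
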