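import Mathlib

set_option autoImplicit false

namespace Fermat.Agent.S49Eig

theorem exists_eigvec_aux {K V T : Type*} [Field K] [IsAlgClosed K] [AddCommGroup V] [Module K V]
    [FiniteDimensional K V] [CommRing T] (ρ : T →+* Module.End K V) (m : Ideal T) [hm : m.IsPrime] :
    ∀ (n : ℕ) (W : Submodule K V), Module.finrank K W ≤ n → (∀ t, ∀ w ∈ W, ρ t w ∈ W) →
      (∀ t, (∀ w ∈ W, ρ t w = 0) → t ∈ m) →
      ∃ v ∈ W, v ≠ 0 ∧ ∀ t, ∃ c : K, ρ t v = c • v ∧ (c = 0 → t ∈ m) := by
  intro n
  induction n with
  | zero =>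
    intro W hW _ hann
    exfalso
    have hbot : W = ⊥ := by
      apply Submodule.finrank_eq_zero.mp
      omega
    apply hm.ne_top
    rw [Ideal.eq_top_iff_one]
    apply hann
    intro w hw
    rw [hbot, Submodule.mem_bot] at hw
    simp [hw]
  | succ n ih =>
    intro W hW hinv hann
    have hWne : W ≠ ⊥ := by
      intro hbot
      apply hm.ne_top
      rw [Ideal.eq_top_iff_one]
      apply hann
      intro w hw
      rw [hbot, Submodule.mem_bot] at hw
      simp [hw]
    by_cases hsc : ∀ t, ∃ c : K, ∀ w ∈ W, ρ t w = c • w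
    · obtain ⟨v, hvW, hv0⟩ := Submodule.exists_mem_ne_zero_of_ne_bot hWne
      refine ⟨v, hvW, hv0, fun t => ?_⟩
      obtain ⟨c, hc⟩ := hsc t
      refine ⟨c, hc v hvW, fun h0 => hann t fun w hw => ?_⟩
      rw [hc w hw, h0, zero_smul]
    · push_neg at hsc
      obtain ⟨t, ht⟩ := hsc
      haveI : Nontrivial W := Submodule.nontrivial_iff_ne_bot.mpr hWne
      obtain ⟨μ, hμ⟩ := Module.End.exists_eigenvalue ((ρ t).restrict (hinv t))
      obtain ⟨w0, hw0⟩ := hμ.exists_hasEigenvector
      have hw0e : ρ t (w0 : V) = μ • (w0 : V) := by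
        have := hw0.apply_eq_smul
        exact congrArg Subtype.val this
      have hw0ne : (w0 : V) ≠ 0 := fun h => hw0.2 (Subtype.ext h)
      set D : Module.End K V := ρ t - μ • 1 with hD
      have hDa : ∀ w, D w = ρ t w - μ • w := fun w => by simp [hD]
      have hcomm : ∀ s w, ρ s (D w) = D (ρ s w) := by
        intro s w
        rw [hDa, hDa, map_sub, map_smul]
        congr 1
        rw [← Module.End.mul_apply, ← Module.End.mul_apply, ← map_mul, ← map_mul, mul_comm]
      obtain ⟨w1, hw1W, hw1⟩ := ht μ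
      have hDW : ∀ w ∈ W, D w ∈ W := fun w hw => by
        rw [hDa]; exact W.sub_mem (hinv t w hw) (W.smul_mem μ hw)
      -- W1
      have hW1lt : W ⊓ LinearMap.ker D < W := by
        refine lt_of_le_of_ne inf_le_left fun h => hw1 ?_
        have : w1 ∈ W ⊓ LinearMap.ker D := by rw [h]; exact hw1W
        have h2 : D w1 = 0 := this.2
        rw [hDa, sub_eq_zero] at h2
        exact h2
      have hf1 : Module.finrank K ↥(W ⊓ LinearMap.ker D) ≤ n := by
        have := Submodule.finrank_lt_finrank_of_lt hW1lt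
        omega
      have hf2 : Module.finrank K ↥(W.map D) ≤ n := by
        have h1 := LinearMap.finrank_range_add_finrank_ker (D.domRestrict W)
        rw [LinearMap.range_domRestrict] at h1
        have h2 : 0 < Module.finrank K (LinearMap.ker (D.domRestrict W)) := by
          apply Module.finrank_pos_iff_exists_ne_zero.mpr
          refine ⟨⟨w0, ?_⟩, ?_⟩
          · rw [LinearMap.mem_ker, LinearMap.domRestrict_apply, hDa, hw0e, sub_self]
          · intro h
            apply hw0.2
            exact congrArg Subtype.val h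
        omega
      by_cases h1 : ∀ s, (∀ w ∈ W ⊓ LinearMap.ker D, ρ s w = 0) → s ∈ m
      · obtain ⟨v, hv, hv'⟩ := ih (W ⊓ LinearMap.ker D) hf1 (fun s w hw => by
          refine ⟨hinv s w hw.1, ?_⟩
          have h2 : D w = 0 := hw.2
          show D (ρ s w) = 0
          rw [← hcomm, h2, map_zero]) h1
        exact ⟨v, hv.1, hv'⟩
      · by_cases h2 : ∀ s, (∀ w ∈ W.map D, ρ s w = 0) → s ∈ m
        · obtain ⟨v, hv, hv'⟩ := ih (W.map D) hf2 (fun s w hw => by
            obtain ⟨x, hx, rfl⟩ := hw
            exact ⟨ρ s x, hinv s x hx, (hcomm s x).symm⟩) h2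
          obtain ⟨x, hx, rfl⟩ := hv
          exact ⟨D x, hDW x hx, hv'⟩
        · exfalso
          push_neg at h1 h2
          obtain ⟨s1, hs1, hs1m⟩ := h1
          obtain ⟨s2, hs2, hs2m⟩ := h2
          have : s1 * s2 ∈ m := by
            apply hann
            intro w hw
            rw [map_mul, Module.End.mul_apply]
            apply hs1
            refine ⟨hinv s2 w hw, ?_⟩
            show D (ρ s2 w) = 0
            rw [← hcomm]
            exact hs2 _ ⟨w, hw, rfl⟩
          rcases hm.mem_or_mem this with h | h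
          · exact hs1m h
          · exact hs2m h

theorem exists_eigvec {K V T : Type*} [Field K] [IsAlgClosed K] [AddCommGroup V] [Module K V]
    [FiniteDimensional K V] [CommRing T] (ρ : T →+* Module.End K V) (m : Ideal T) [hm : m.IsPrime]
    (hinj : ∀ t, ρ t = 0 → t ∈ m) :
    ∃ (v : V) (χ : T →+* K), v ≠ 0 ∧ (∀ t, ρ t v = χ t • v) ∧ ∀ t, χ t = 0 → t ∈ m := by
  obtain ⟨v, -, hv0, hv⟩ := exists_eigvec_aux ρ m (Module.finrank K (⊤ : Submodule K V)) ⊤ le_rfl
    (fun _ _ _ => Submodule.mem_top) (fun t ht => hinj t (LinearMap.ext fun w => ht w Submodule.mem_top))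
  choose c hc hc0 using hv
  have hinjv := smul_left_injective K hv0
  refine ⟨v, { toFun := c, map_one' := ?_, map_mul' := ?_, map_zero' := ?_, map_add' := ?_ }, hv0, hc, hc0⟩
  · apply hinjv
    show c 1 • v = (1 : K) • v
    rw [← hc, map_one, one_smul, Module.End.one_apply]
  · intro s t
    apply hinjv
    show c (s * t) • v = (c s * c t) • v
    rw [← hc, map_mul, Module.End.mul_apply, hc t, map_smul, hc s, smul_smul, mul_comm]
  · apply hinjv
    show c 0 • v = (0 : K) • v
    rw [← hc, map_zero, zero_smul, LinearMap.zero_apply]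
  · intro s t
    apply hinjv
    show c (s + t) • v = (c s + c t) • v
    rw [← hc, map_add, LinearMap.add_apply, hc s, hc t, add_smul]

end Fermat.Agent.S49Eig
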