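import Mathlib

set_option autoImplicit false

namespace Fermat.Agent.S54A

local notation "L" => AlgebraicClosure ℚ
local notation "B" => integralClosure ℤ (AlgebraicClosure ℚ)
local notation "GQ" => (AlgebraicClosure ℚ ≃ₐ[ℚ] AlgebraicClosure ℚ)

local instance algL : Algebra.IsAlgebraic ℚ L := AlgebraicClosure.isAlgebraic ℚ
local instance aclL : IsAlgClosure ℚ L := ⟨inferInstance, AlgebraicClosure.isAlgebraic ℚ⟩
local instance galL : IsGalois ℚ L := IsAlgClosure.isGalois ℚ L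

noncomputable local instance actB : MulSemiringAction GQ B :=
  IsIntegralClosure.MulSemiringAction ℤ ℚ L B

theorem coe_smulB (g : GQ) (b : B) : ((g • b : B) : L) = g (b : L) :=
  algebraMap_galRestrict_apply ℤ g b

local instance topB : TopologicalSpace B := ⊥
local instance discB : DiscreteTopology B := ⟨rfl⟩

theorem contB : ContinuousSMul GQ B := by
  rw [continuousSMul_iff_stabilizer_isOpen]
  intro b
  have hfd : FiniteDimensional ℚ (IntermediateField.adjoin ℚ {(b : L)}) :=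
    IntermediateField.adjoin.finiteDimensional (Algebra.IsIntegral.isIntegral _)
  have hopen := IntermediateField.fixingSubgroup_isOpen (IntermediateField.adjoin ℚ {(b : L)})
  refine Subgroup.isOpen_mono ?_ hopen
  intro g hg
  rw [MulAction.mem_stabilizer_iff]
  apply Subtype.ext
  rw [coe_smulB]
  exact hg ⟨(b : L), IntermediateField.mem_adjoin_simple_self ℚ _⟩

theorem invB : Algebra.IsInvariant ℤ B GQ := by
  refine ⟨fun b hb => ?_⟩
  have h1 : (b : L) ∈ (⊥ : IntermediateField ℚ L) := by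
    rw [InfiniteGalois.mem_bot_iff_fixed]
    intro g
    rw [← coe_smulB, hb g]
  rw [IntermediateField.mem_bot] at h1
  obtain ⟨k, hk⟩ := h1
  have hb' : IsIntegral ℤ (b : L) := b.2
  rw [← hk, isIntegral_algebraMap_iff (FaithfulSMul.algebraMap_injective ℚ L)] at hb'
  obtain ⟨a, rfl⟩ := IsIntegrallyClosed.algebraMap_eq_of_integral hb'
  refine ⟨a, Subtype.ext ?_⟩
  rw [← hk]
  simp

theorem exists_frob (l : ℕ) (hl : l.Prime) :
    ∃ (Q : Ideal (integralClosure ℤ (AlgebraicClosure ℚ)))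
      (σ : AlgebraicClosure ℚ ≃ₐ[ℚ] AlgebraicClosure ℚ),
      Q.IsPrime ∧ (l : integralClosure ℤ (AlgebraicClosure ℚ)) ∈ Q ∧
      ∀ b : integralClosure ℤ (AlgebraicClosure ℚ), ∃ c ∈ Q,
        σ (b : AlgebraicClosure ℚ) - (b : AlgebraicClosure ℚ) ^ l = (c : AlgebraicClosure ℚ) := by
  haveI := contB
  haveI := invB
  haveI : Fact l.Prime := ⟨hl⟩
  let P : Ideal ℤ := Ideal.span {(l : ℤ)}
  haveI hP : P.IsPrime := by
    rw [Ideal.span_singleton_prime (by exact_mod_cast hl.ne_zero)]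
    exact Nat.prime_iff_prime_int.mp hl
  obtain ⟨Q, -, hQ1, hQ2⟩ := Ideal.exists_ideal_over_prime_of_isIntegral P (⊥ : Ideal B) (by
    intro z hz
    have h1 : algebraMap ℤ B z = 0 := by simpa using hz
    have h2 : z = 0 := by
      apply FaithfulSMul.algebraMap_injective ℤ B
      rw [h1, map_zero]
    rw [h2]; exact zero_mem _)
  haveI := hQ1
  haveI hLO : Q.LiesOver P := ⟨hQ2.symm⟩
  have hlQ : (l : B) ∈ Q := by
    have h1 : (l : ℤ) ∈ Q.comap (algebraMap ℤ B) := by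
      rw [hQ2]; exact Ideal.mem_span_singleton_self _
    simpa using h1
  haveI hchar : CharP (B ⧸ Q) l := by
    rw [CharP.charP_iff_prime_eq_zero hl]
    have := Ideal.Quotient.eq_zero_iff_mem.mpr hlQ
    simpa using this
  have hinj : Function.Injective (frobenius (B ⧸ Q) l) := frobenius_inj (B ⧸ Q) l
  have hsurj : Function.Surjective (frobenius (B ⧸ Q) l) := by
    intro y
    obtain ⟨b, rfl⟩ := Ideal.Quotient.mk_surjective y
    obtain ⟨c, hc⟩ := IsAlgClosed.exists_pow_nat_eq (b : L) hl.pos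
    have hcint : IsIntegral ℤ c := by
      apply IsIntegral.of_pow hl.pos
      rw [hc]; exact b.2
    refine ⟨Ideal.Quotient.mk Q ⟨c, hcint⟩, ?_⟩
    rw [frobenius_def, ← map_pow]
    congr 1
    apply Subtype.ext
    push_cast
    exact hc
  let φ : (B ⧸ Q) →ₐ[ℤ ⧸ P] (B ⧸ Q) :=
    { frobenius (B ⧸ Q) l with
      commutes' := by
        intro r
        obtain ⟨n, rfl⟩ := Ideal.Quotient.mk_surjective r
        show frobenius (B ⧸ Q) l (algebraMap (ℤ ⧸ P) (B ⧸ Q) (Ideal.Quotient.mk P n)) =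
          algebraMap (ℤ ⧸ P) (B ⧸ Q) (Ideal.Quotient.mk P n)
        rw [eq_intCast (Ideal.Quotient.mk P) n, map_intCast, map_intCast] }
  let Φ : (B ⧸ Q) ≃ₐ[ℤ ⧸ P] (B ⧸ Q) := AlgEquiv.ofBijective φ ⟨hinj, hsurj⟩
  obtain ⟨⟨σ, hσ⟩, hσF⟩ := Ideal.Quotient.stabilizerHom_surjective_of_profinite (G := AlgebraicClosure ℚ ≃ₐ[ℚ] AlgebraicClosure ℚ) P Q Φ
  refine ⟨Q, σ, hQ1, hlQ, ?_⟩
  intro b
  have h1 := congrArg (fun e => e (Ideal.Quotient.mk Q b)) hσF
  have h2 : Ideal.Quotient.mk Q (σ • b) = Ideal.Quotient.mk Q (b ^ l) := by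
    rw [map_pow]
    exact h1
  rw [Ideal.Quotient.eq] at h2
  refine ⟨σ • b - b ^ l, h2, ?_⟩
  push_cast
  rw [coe_smulB]

end Fermat.Agent.S54A
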