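import Mathlib

set_option autoImplicit false

namespace Fermat.Agent.S54B

open Polynomial

theorem val_le_one_of_isIntegral (A : ValuationSubring (AlgebraicClosure ℚ))
    (a : AlgebraicClosure ℚ) (ha : IsIntegral ℤ a) : A.valuation a ≤ 1 := by
  rw [ValuationSubring.valuation_le_one_iff]
  have h1 : IsIntegral A a := ha.tower_top
  obtain ⟨y, hy⟩ := IsIntegrallyClosed.isIntegral_iff.mp h1
  rw [← hy]
  exact y.2

theorem aux (A : ValuationSubring (AlgebraicClosure ℚ)) (x : AlgebraicClosure ℚ) (hx : x ∈ A)
    (n : ℕ) :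
    ∀ f : (integralClosure ℤ (AlgebraicClosure ℚ))[X], f.natDegree ≤ n → aeval x f = 0 →
      (∃ i, A.valuation
        ((f.coeff i : integralClosure ℤ (AlgebraicClosure ℚ)) : AlgebraicClosure ℚ) = 1) →
    ∃ b s : AlgebraicClosure ℚ,
      IsIntegral ℤ b ∧ IsIntegral ℤ s ∧ s ≠ 0 ∧ s⁻¹ ∈ A ∧ x * s = b := by
  induction n with
  | zero =>
    intro f hf h0 ⟨i, hi⟩
    exfalso
    have hfC := Polynomial.eq_C_of_natDegree_le_zero hf
    rw [hfC] at h0
    simp only [aeval_C] at h0
    have h00 : f.coeff 0 = 0 := by
      have : ((f.coeff 0 : integralClosure ℤ (AlgebraicClosure ℚ)) : AlgebraicClosure ℚ) = 0 := h0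
      exact_mod_cast this
    rw [h00] at hfC
    rw [hfC] at hi
    simp at hi
  | succ n ih =>
    intro f hf h0 ⟨i, hi⟩
    by_cases hdeg : f.natDegree ≤ n
    · exact ih f hdeg h0 ⟨i, hi⟩
    have hdeg' : f.natDegree = n + 1 := by omega
    have hax : IsIntegral ℤ ((f.leadingCoeff : AlgebraicClosure ℚ) * x) := by
      have h1 : IsIntegral (integralClosure ℤ (AlgebraicClosure ℚ)) (f.leadingCoeff • x) :=
        isIntegral_leadingCoeff_smul f x h0
      have h2 : IsIntegral ℤ (f.leadingCoeff • x) := isIntegral_trans _ h1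
      exact h2
    by_cases hva : A.valuation (f.leadingCoeff : AlgebraicClosure ℚ) = 1
    · refine ⟨x * f.leadingCoeff, f.leadingCoeff, ?_, f.leadingCoeff.2, ?_, ?_, rfl⟩
      · rwa [mul_comm]
      · intro h; rw [h] at hva; simp at hva
      · rw [← ValuationSubring.valuation_le_one_iff, map_inv₀, hva]; simp
    · have hva' : A.valuation (f.leadingCoeff : AlgebraicClosure ℚ) < 1 :=
        lt_of_le_of_ne (val_le_one_of_isIntegral A _ f.leadingCoeff.2) hva
      have hvx : A.valuation x ≤ 1 := (ValuationSubring.valuation_le_one_iff A x).mpr hx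
      have hvax : A.valuation ((f.leadingCoeff : AlgebraicClosure ℚ) * x) < 1 := by
        rw [map_mul]
        exact mul_lt_one_of_lt_of_le hva' hvx
      let y : integralClosure ℤ (AlgebraicClosure ℚ) :=
        ⟨(f.leadingCoeff : AlgebraicClosure ℚ) * x, hax⟩
      apply ih (f.eraseLead + C y * X ^ n)
      · apply (natDegree_add_le _ _).trans
        apply max_le
        · have := eraseLead_natDegree_le f; omega
        · exact natDegree_C_mul_X_pow_le _ _
      · have key := congrArg (aeval x) (eraseLead_add_C_mul_X_pow f)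
        simp only [map_add, map_mul, aeval_C, map_pow, aeval_X, hdeg'] at key
        simp only [map_add, map_mul, aeval_C, map_pow, aeval_X]
        have hy : algebraMap (integralClosure ℤ (AlgebraicClosure ℚ)) (AlgebraicClosure ℚ) y
            = algebraMap (integralClosure ℤ (AlgebraicClosure ℚ)) (AlgebraicClosure ℚ)
              f.leadingCoeff * x := rfl
        rw [hy, ← h0, ← key]; ring
      · refine ⟨i, ?_⟩
        have hi1 : i ≠ f.natDegree := by
          intro h
          apply hva
          rw [Polynomial.leadingCoeff, ← h]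
          exact hi
        rw [coeff_add, eraseLead_coeff, if_neg hi1, coeff_C_mul_X_pow]
        by_cases hin : i = n
        · rw [if_pos hin]
          push_cast
          have : A.valuation (y : AlgebraicClosure ℚ) < A.valuation (f.coeff i : AlgebraicClosure ℚ) := by
            rw [hi]; exact hvax
          rw [Valuation.map_add_eq_of_lt_left _ this, hi]
        · rw [if_neg hin, add_zero]; exact hi

theorem exists_frac (A : ValuationSubring (AlgebraicClosure ℚ)) (x : AlgebraicClosure ℚ)
    (hx : x ∈ A) :
    ∃ b s : AlgebraicClosure ℚ,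
      IsIntegral ℤ b ∧ IsIntegral ℤ s ∧ s ≠ 0 ∧ s⁻¹ ∈ A ∧ x * s = b := by
  have halg : IsAlgebraic ℤ x := by
    have h1 : IsAlgebraic ℚ x := (AlgebraicClosure.isAlgebraic ℚ).isAlgebraic x
    exact (IsFractionRing.isAlgebraic_iff ℤ ℚ (AlgebraicClosure ℚ)).mpr h1
  obtain ⟨f, hf0, hfx⟩ := halg
  have hprim : f.primPart.IsPrimitive := f.isPrimitive_primPart
  have hpx : aeval x f.primPart = 0 := aeval_primPart_eq_zero hf0 hfx
  apply aux A x hx _ (f.primPart.map (algebraMap ℤ (integralClosure ℤ (AlgebraicClosure ℚ)))) le_rfl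
  · rw [aeval_map_algebraMap]; exact hpx
  · by_contra hcon
    push Not at hcon
    -- the ideal of integers of valuation < 1
    let I : Ideal ℤ := Ideal.comap (algebraMap ℤ A) (IsLocalRing.maximalIdeal A)
    have hI : I.IsPrime := Ideal.comap_isPrime _ _
    have hmem : ∀ i, f.primPart.coeff i ∈ I := by
      intro i
      have h1 := hcon i
      rw [coeff_map] at h1
      show algebraMap ℤ A (f.primPart.coeff i) ∈ IsLocalRing.maximalIdeal A
      rw [ValuationSubring.valuation_lt_one_iff]
      refine lt_of_le_of_ne ?_ ?_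
      · exact (ValuationSubring.valuation_le_one A _)
      · intro h
        apply h1
        rw [← h]
        rfl
    have hd : IsUnit (Submodule.IsPrincipal.generator I) := by
      apply hprim
      rw [C_dvd_iff_dvd_coeff]
      intro i
      exact (Submodule.IsPrincipal.mem_iff_generator_dvd I).mp (hmem i)
    apply hI.ne_top
    rw [Ideal.eq_top_iff_one, Submodule.IsPrincipal.mem_iff_generator_dvd I]
    exact hd.dvd

end Fermat.Agent.S54B
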