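import Mathlib

set_option autoImplicit false

namespace Fermat.Agent.S54C

theorem exists_valSubring (Q : Ideal (integralClosure ℤ (AlgebraicClosure ℚ))) (hQ : Q.IsPrime) :
    ∃ A : ValuationSubring (AlgebraicClosure ℚ),
      ∀ b : integralClosure ℤ (AlgebraicClosure ℚ),
        (b ∈ Q ↔ (b : AlgebraicClosure ℚ) ∈ A.nonunits) := by
  classical
  haveI := hQ
  let ι : integralClosure ℤ (AlgebraicClosure ℚ) →+* AlgebraicClosure ℚ :=
    (integralClosure ℤ (AlgebraicClosure ℚ)).val.toRingHom
  have hι : ∀ y : Q.primeCompl, IsUnit (ι y) := by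
    intro y
    have hy : (y : integralClosure ℤ (AlgebraicClosure ℚ)) ≠ 0 := by
      intro h0
      exact y.2 (h0 ▸ Q.zero_mem)
    have : ι y ≠ 0 := by
      intro h0
      exact hy (Subtype.ext h0)
    exact isUnit_iff_ne_zero.mpr this
  let f : Localization.AtPrime Q →+* AlgebraicClosure ℚ :=
    IsLocalization.lift (M := Q.primeCompl) (S := Localization.AtPrime Q) hι
  obtain ⟨A, h, hloc⟩ := IsLocalRing.exists_factor_valuationRing f
  refine ⟨A, fun b => ?_⟩
  have hfb : f (algebraMap _ (Localization.AtPrime Q) b) = (b : AlgebraicClosure ℚ) :=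
    IsLocalization.lift_eq hι b
  have hmem : (b : AlgebraicClosure ℚ) ∈ A := by
    rw [← hfb]; exact h _
  have hcoe : (⟨(b : AlgebraicClosure ℚ), hmem⟩ : A) =
      (f.codRestrict A.toSubring h) (algebraMap _ (Localization.AtPrime Q) b) := by
    apply Subtype.ext
    exact hfb.symm
  rw [← IsLocalization.AtPrime.to_map_mem_maximal_iff (Localization.AtPrime Q) Q b]
  have h2 : (b : AlgebraicClosure ℚ) ∈ A.nonunits ↔
      (⟨(b : AlgebraicClosure ℚ), hmem⟩ : A) ∈ IsLocalRing.maximalIdeal A :=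
    (ValuationSubring.coe_mem_nonunits_iff (A := A) (a := ⟨(b : AlgebraicClosure ℚ), hmem⟩))
  rw [h2, IsLocalRing.mem_maximalIdeal, IsLocalRing.mem_maximalIdeal, mem_nonunits_iff,
    mem_nonunits_iff, hcoe]
  exact not_congr (isUnit_map_iff (f.codRestrict A.toSubring h) _).symm

end Fermat.Agent.S54C
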