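import Mathlib
import Fermat.Prelude.Def_EllipticCurve_FrobeniusTrace
import Fermat.Agent.S54_A
import Fermat.Agent.S54_B
import Fermat.Agent.S54_C

set_option autoImplicit false

namespace Fermat.Agent.S54Frob

open scoped Pointwise

local notation "L" => AlgebraicClosure ℚ

theorem integral_val_le_one (A : ValuationSubring L) (b : L) (hb : IsIntegral ℤ b) :
    A.valuation b ≤ 1 := by
  rw [A.valuation_le_one_iff]
  have h1 : IsIntegral A b := hb.tower_top
  obtain ⟨y, hy⟩ := IsIntegrallyClosed.isIntegral_iff.1 h1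
  rw [← hy]
  exact y.2

theorem core (A : ValuationSubring L) (σ : L ≃ₐ[ℚ] L) (l : ℕ) (hl : l ≠ 0)
    (H1 : ∀ b : L, IsIntegral ℤ b → A.valuation (σ b - b ^ l) < 1)
    (H2 : ∀ x ∈ A, ∃ b s : L, IsIntegral ℤ b ∧ IsIntegral ℤ s ∧ A.valuation s = 1 ∧ x * s = b) :
    A.IsFrobeniusAt σ l := by
  have H3 : ∀ b : L, IsIntegral ℤ b → A.valuation b ≤ 1 := integral_val_le_one A
  have hint : ∀ (τ : L ≃ₐ[ℚ] L) (b : L), IsIntegral ℤ b → IsIntegral ℤ (τ b) := by
    intro τ b hb
    exact hb.map (τ.toAlgHom.restrictScalars ℤ)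
  have h3 : ∀ s : L, IsIntegral ℤ s → A.valuation s = 1 → A.valuation (σ s) = 1 := by
    intro s hs hv
    have h := H1 s hs
    have hpow : A.valuation (s ^ l) = 1 := by rw [map_pow, hv, one_pow]
    rw [← hpow] at h
    rw [Valuation.map_eq_of_sub_lt _ h, hpow]
  have h4 : ∀ t : L, IsIntegral ℤ t → A.valuation (σ t) = 1 → A.valuation t = 1 := by
    intro t ht hv
    have h := H1 t ht
    rw [← hv, Valuation.map_sub_swap] at h
    have h5 : A.valuation (t ^ l) = 1 := by rw [Valuation.map_eq_of_sub_lt _ h, hv]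
    rw [map_pow] at h5
    rcases lt_or_eq_of_le (H3 t ht) with hlt | heq
    · exact absurd h5 (ne_of_lt (pow_lt_one₀ zero_le' hlt hl))
    · exact heq
  have h5 : ∀ x ∈ A, σ x ∈ A := by
    intro x hx
    obtain ⟨b, s, hb, hs, hvs, hxs⟩ := H2 x hx
    rw [← A.valuation_le_one_iff]
    have e : σ x * σ s = σ b := by rw [← map_mul, hxs]
    have e2 := congrArg A.valuation e
    rw [map_mul, h3 s hs hvs, mul_one] at e2
    rw [e2]
    exact H3 _ (hint σ b hb)
  have h6 : ∀ x ∈ A, σ.symm x ∈ A := by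
    intro x hx
    obtain ⟨b, s, hb, hs, hvs, hxs⟩ := H2 x hx
    rw [← A.valuation_le_one_iff]
    have e : σ.symm x * σ.symm s = σ.symm b := by rw [← map_mul, hxs]
    have e2 := congrArg A.valuation e
    have hv : A.valuation (σ.symm s) = 1 :=
      h4 _ (hint σ.symm s hs) (by rw [AlgEquiv.apply_symm_apply]; exact hvs)
    rw [map_mul, hv, mul_one] at e2
    rw [e2]
    exact H3 _ (hint σ.symm b hb)
  have hσ : σ ∈ A.decompositionSubgroup ℚ := by
    rw [MulAction.mem_stabilizer_iff]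
    apply le_antisymm
    · intro y hy
      rw [ValuationSubring.mem_smul_pointwise_iff_exists] at hy
      obtain ⟨x, hx, rfl⟩ := hy
      exact h5 x hx
    · intro y hy
      rw [ValuationSubring.mem_pointwise_smul_iff_inv_smul_mem]
      exact h6 y hy
  refine ⟨hσ, ?_⟩
  intro x
  obtain ⟨a, rfl⟩ := IsLocalRing.residue_surjective x
  rw [← IsLocalRing.ResidueField.residue_smul, ← map_pow]
  rw [← sub_eq_zero, ← map_sub, IsLocalRing.residue_eq_zero_iff,
    ValuationSubring.valuation_lt_one_iff]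
  obtain ⟨b, s, hb, hs, hvs, hxs⟩ := H2 a a.2
  have key : (σ (a:L) - (a:L)^l) * σ s = (σ b - b^l) - (a:L)^l * (σ s - s^l) := by
    rw [← hxs, map_mul]; ring
  have hv1 : A.valuation ((σ b - b^l) - (a:L)^l * (σ s - s^l)) < 1 := by
    apply Valuation.map_sub_lt _ (H1 b hb)
    rw [map_mul, map_pow]
    calc A.valuation (a:L) ^ l * A.valuation (σ s - s^l)
        ≤ 1 * A.valuation (σ s - s^l) := by
          gcongr
          exact pow_le_one' (A.valuation_le_one a) l
      _ < 1 := by rw [one_mul]; exact H1 s hs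
  rw [← key, map_mul, h3 s hs hvs, mul_one] at hv1
  exact hv1

theorem exists_isFrobeniusAt (l : ℕ) (hl : l.Prime) :
    ∃ (A : ValuationSubring (AlgebraicClosure ℚ))
      (σ : AlgebraicClosure ℚ ≃ₐ[ℚ] AlgebraicClosure ℚ),
      A.LiesOverPrime l ∧ A.IsFrobeniusAt σ l := by
  obtain ⟨Q, σ, hQ, hlQ, hfrob⟩ := Fermat.Agent.S54A.exists_frob l hl
  obtain ⟨A, hA⟩ := Fermat.Agent.S54C.exists_valSubring Q hQ
  refine ⟨A, σ, ?_, core A σ l hl.ne_zero ?_ ?_⟩
  · have h := (hA (l : integralClosure ℤ L)).1 hlQ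
    simpa [ValuationSubring.LiesOverPrime] using h
  · intro b hb
    obtain ⟨c, hc, hce⟩ := hfrob ⟨b, hb⟩
    have h := (hA c).1 hc
    rw [ValuationSubring.mem_nonunits_iff, ← hce] at h
    exact h
  · intro x hx
    obtain ⟨b, s, hb, hs, hs0, hsinv, hxs⟩ := Fermat.Agent.S54B.exists_frac A x hx
    refine ⟨b, s, hb, hs, ?_, hxs⟩
    apply le_antisymm (integral_val_le_one A s hs)
    have h := (A.valuation_le_one_iff _).2 hsinv
    rw [map_inv₀] at h
    have hpos : 0 < A.valuation s := by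
      rw [zero_lt_iff]
      exact (Valuation.ne_zero_iff _).2 hs0
    exact (inv_le_one₀ hpos).1 h

end Fermat.Agent.S54Frob
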